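import Mathlib
import Fermat.Agent.H12.LL.ModeF
import Fermat.Agent.H25.SelJ
import Fermat.Agent.H19.Stuck

/-!
# The flat mode, with stuck primes
-/

set_option autoImplicit false
set_option linter.unusedSectionVars false
set_option linter.style.haveILetI false

noncomputable section

namespace Fermat.Agent.H12.LL

open Fermat.Agent.TC Fermat.Agent.TW Fermat.Agent.CC Fermat.Agent.H25.GE Fermat.Agent.H25.TR
open Fermat.Agent.Ell Fermat.Agent.H25 Fermat.Agent.H25.PR Fermat.Agent.H25.PT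
open Fermat.Agent.H22 Fermat.Agent.H05 Fermat.Agent.H25.SB
open IsLocalRing CongruenceSubgroup Matrix
open scoped Pointwise

variable {W : WeierstrassCurve ℤ} {p : ℕ} [hp : Fact p.Prime]

section

variable (hΔ : W.Δ ≠ 0) (hirr : W.ModRepIsIrreducible p) (hp2 : p ≠ 2)
  (O : Type) [CommRing O] [IsDomain O] [IsDiscreteValuationRing O]
  [IsAdicComplete (maximalIdeal O) O] [Finite (ResidueField O)] [Algebra ℤ_[p] O]
  [IsLocalHom (algebraMap ℤ_[p] O)]

/-- ramification of `rbar` at the standard place -/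
theorem RDW_ram {q : Nat.Primes} (h : ¬ UnrAt W p q) :
    ∃ τ ∈ (plv (q : ℕ) q.2).inertiaSubgroupIn ℚ, (RDW hΔ hirr hp2 O).rbar τ ≠ 1 := by
  by_contra hcon
  push Not at hcon
  refine h fun A hA σ hσ P hP => ?_
  obtain ⟨g, hg⟩ := exists_smul_eq q.2 (plv_over (q : ℕ) q.2) hA
  have h2 : g⁻¹ * σ * g ∈ (plv (q : ℕ) q.2).inertiaSubgroupIn ℚ :=
    Fermat.Agent.H09.inertia_conj (by rw [hg]; exact hσ)
  have h3 := (RDW_rbar_eq_one_iff hΔ hirr hp2 (O := O) _).mp (hcon _ h2)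
  have h4 := h3 (g⁻¹ • P) (by
    have h5 := (DistribSMul.toAddMonoidHom (Pts (WQ W)) (g⁻¹ : GQ)).map_nsmul p P
    rw [hP, map_zero] at h5
    exact h5.symm)
  have e : g⁻¹ * σ * g = g⁻¹ * (σ * g) := by group
  rw [e, mul_smul, mul_smul, smul_inv_smul] at h4
  exact (smul_left_cancel _ h4)

include hp in
/-- `q ^ 2 ≠ 1` in the residue field -/
theorem sq_ne_one_res {q : ℕ} (h : ¬ q ^ 2 ≡ 1 [MOD p]) : ((q : ℕ) : ResidueField O) ^ 2 ≠ 1 := by
  haveI := charP_res p O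
  intro h0
  apply h
  have h1 : ((q ^ 2 : ℕ) : ResidueField O) = ((1 : ℕ) : ResidueField O) := by
    rw [Nat.cast_pow, h0, Nat.cast_one]
  exact (CharP.cast_eq_iff_mod_eq (ResidueField O) p).mp h1

/-- the local condition at the stuck primes -/
theorem lstuck_RDW {S : Finset Nat.Primes} (hS : ∀ q : Nat.Primes, q ∉ S → UnrAt W p q)
    {q : Nat.Primes} (h : StOk W p q) :
    SB.LCond (plv q q.2) (RDW hΔ hirr hp2 O).rbar 0 (H19.ST.StuckC q) := by
  haveI := charP_res p O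
  have hU : lev.isOpen (RDW hΔ hirr hp2 O).rbar.ker :=
    lev_isOpen_of_levS (RDW_open hΔ hirr hp2 hS)
  refine H19.ST.lstuck hp.out hp2 hU q (fun h' => h.ne h'.symm)
    (fun τ hτ => RDW_unr hΔ hirr hp2 h.unr (plv_over _ _) hτ) ?_ ?_ (sq_ne_one_res O h.sq)
  · rw [RD.det_rbar, RDW_chi_frob hΔ hirr hp2 q.2 h.ne (plv_over _ _) (frv_spec _ _), map_natCast]
  · have h1 := h.tr _ (plv_over _ q.2) _ (frv_spec _ q.2)
    have h2 := congrArg (ZMod.castHom (dvd_refl p) (ResidueField O)) h1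
    rw [map_pow, map_pow, map_add, map_one, map_natCast] at h2
    rw [RD.trace_rbar, RDW_tbar, ringHom_padic]
    exact h2

end

open scoped Classical in
/-- **the flat mode**, with stuck primes -/
theorem modeIn_false (hGW : SB.GWad p) (W : WeierstrassCurve ℤ) (St : Finset Nat.Primes) :
    ModeIn W p False St := by
  intro hΔ hirr hp2 O _ _ _ _ _ _ _ _ K _ _ _ _ ζ hζ hpO Ge S T hTS hStS hStT hSunr hpS hT hStOk
    hram hTW
  haveI := charP_res p O
  refine ⟨fun {S'} {bad} H => (∀ hbar : HBar (RDW hΔ hirr hp2 O) S', FlT p O (H.C hbar).t) ∧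
      ∀ q ∈ St, ∀ x, H.t x (frv (q : ℕ) q.2) ^ 2 = (((q : ℕ) : H.P x) + 1) ^ 2,
    fun H hH => ⟨fun hbar => H.flT_cd hpO Ge _ _ hbar fun x => (hH x).2.1 id, fun q hq x =>
      hin_sq hpO Ge _ _ H x q.2 (hStOk q hq).ne ((hH x).2.2.2 q hq).1 ((hH x).2.2.2 q hq).2
        (plv_over _ _) (frv_spec _ _)⟩, ?_⟩
  obtain ⟨r, hr⟩ := SB.exists_SelB_modes (D := RDW hΔ hirr hp2 O) hGW hp2
    (χ := chiB hΔ hirr hp2 O) (S := S) (T := T) (U := St) (pp := ⟨p, hp.out⟩) rfl hpS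
    (fun h => (hT _ h).1 rfl) (fun h => (hStOk _ h).ne rfl) hTS hStS
    (Finset.disjoint_right.mpr hStT) hTW
    (fun q hq hqT hqU hqp => RDW_ram hΔ hirr hp2 O
      (hram q hq hqT hqU fun h => hqp (Subtype.ext h))) (RDW_isCyc hΔ hirr hp2) hpO
    (lev_isOpen_of_levS (RDW_open hΔ hirr hp2 hSunr))
    (condU := fun q => H19.ST.StuckC q) (fun q hq => lstuck_RDW hΔ hirr hp2 O hSunr (hStOk q hq))
  refine ⟨r, fun n D₀ hn hD₀ => ?_⟩
  obtain ⟨qv, h1, h2, h3⟩ := hr n D₀.primeFactors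
  refine ⟨qv, h1, fun j h => (h2 j).1 (Nat.mem_primeFactors.mpr ⟨(qv j).2, h, hD₀⟩),
    fun j => (h2 j).2.1, fun j => (h2 j).2.2, ?_⟩
  intro κ _ _ bad H hbar hPc hun
  exact (h3 _ (by congr) κ bad H hbar (fun q hq hqT _ hqp i x τ hτ =>
      hun i x q hq hqT (fun h => hqp (Subtype.ext h)) _ (plv_over _ _) τ hτ)
    (fun d hd q hq => H19.ST.stuckC_sHom_of_sq H hbar hp.out hp2 q
      (sq_ne_one_res O (hStOk q hq).sq) (fun i x => (hPc i).2 q hq x) hd)).1
    (lflat_RDW hΔ hirr hp2 O hζ hSunr (plv_over _ _)) (fun i => (hPc i).1 hbar)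

end Fermat.Agent.H12.LL
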