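import Mathlib
import Fermat.Agent.H13.LL.ModeFalse
import Fermat.Agent.H02M.StT6

/-!
# The strict mode, with stuck primes
-/

set_option autoImplicit false
set_option linter.unusedSectionVars false
set_option linter.style.haveILetI false

noncomputable section

namespace Fermat.Agent.H12.LL

open Fermat.Agent.TC Fermat.Agent.TW Fermat.Agent.CC Fermat.Agent.H25.GE Fermat.Agent.H25.TR
open Fermat.Agent.Ell Fermat.Agent.H25 Fermat.Agent.H25.PR Fermat.Agent.H25.PT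
open Fermat.Agent.H22 Fermat.Agent.H05 Fermat.Agent.H25.SB
open IsLocalRing CongruenceSubgroup Matrix
open scoped Pointwise

variable {W : WeierstrassCurve ℤ} {p : ℕ} [hp : Fact p.Prime]

open scoped Classical in
/-- **the strict mode** (multiplicative reduction at `p`), with stuck primes -/
theorem modeIn_true (hGW : SB.GWad p) (hpΔ : (p : ℤ) ∣ W.Δ) (hc₄ : ¬ (p : ℤ) ∣ W.c₄)
    (Sst : Finset Nat.Primes) : ModeIn W p True Sst := by
  intro hΔ hirr hp2 O _ _ _ _ _ _ _ _ K _ _ _ _ ζ hζ hpO Ge S T hTS hStS hStT hSunr hpS hT hStOk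
    hram hTW
  haveI := charP_res p O
  have hA : (plv p hp.out).LiesOverPrime p := plv_over _ _
  obtain ⟨psi, ho, -⟩ := Fermat.Agent.H25.St.exists_ordD_RDW hΔ hirr hp2 O hpΔ hc₄ hA
  have hchi := RDW_isCyc hΔ hirr hp2 (O := O)
  refine ⟨fun {S'} {bad} H => (HBar (RDW hΔ hirr hp2 O) S' →
      ∀ x, Fermat.Agent.H25.St.StT (plv p hp.out) (RDW hΔ hirr hp2 O).chi psi (H.t x)) ∧
      ∀ q ∈ Sst, ∀ x, H.t x (frv (q : ℕ) q.2) ^ 2 = (((q : ℕ) : H.P x) + 1) ^ 2,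
    fun H hH => ⟨fun hbar x => Fermat.Agent.H25.St.stT_pt hpO Ge _ _ H hbar hp2 x
        ⟨(hH x).2.2.1 trivial, by rw [pow_two]; exact (hH x).1⟩ hA ho
        (Fermat.Agent.H25.St.exists_inertia_ne (O := O) hp.out hp2 hA hchi), fun q hq x =>
      hin_sq hpO Ge _ _ H x q.2 (hStOk q hq).ne ((hH x).2.2.2 q hq).1 ((hH x).2.2.2 q hq).2
        (plv_over _ _) (frv_spec _ _)⟩, ?_⟩
  obtain ⟨r, hr⟩ := SB.exists_SelB_modes (D := RDW hΔ hirr hp2 O) hGW hp2
    (χ := chiB hΔ hirr hp2 O) (S := S) (T := T) (U := Sst) (pp := ⟨p, hp.out⟩) rfl hpS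
    (fun h => (hT _ h).1 rfl) (fun h => (hStOk _ h).ne rfl) hTS hStS
    (Finset.disjoint_right.mpr hStT) hTW
    (fun q hq hqT hqU hqp => RDW_ram hΔ hirr hp2 O
      (hram q hq hqT hqU fun h => hqp (Subtype.ext h))) hchi hpO
    (lev_isOpen_of_levS (RDW_open hΔ hirr hp2 hSunr))
    (condU := fun q => H19.ST.StuckC q) (fun q hq => lstuck_RDW hΔ hirr hp2 O hSunr (hStOk q hq))
  refine ⟨r, fun n D₀ hn hD₀ => ?_⟩
  obtain ⟨qv, h1, h2, h3⟩ := hr n D₀.primeFactors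
  refine ⟨qv, h1, fun j h => (h2 j).1 (Nat.mem_primeFactors.mpr ⟨(qv j).2, h, hD₀⟩),
    fun j => (h2 j).2.1, fun j => (h2 j).2.2, ?_⟩
  intro κ _ _ bad H hbar hPc hun
  exact (h3 _ (by congr) κ bad H hbar (fun q hq hqT _ hqp i x τ hτ =>
      hun i x q hq hqT (fun h => hqp (Subtype.ext h)) _ (plv_over _ _) τ hτ)
    (fun d hd q hq => H19.ST.stuckC_sHom_of_sq H hbar hp.out hp2 q
      (sq_ne_one_res O (hStOk q hq).sq) (fun i x => (hPc i).2 q hq x) hd)).2.1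
    (fun d hd => Fermat.Agent.H25.St.strict_cond H hbar hp2 hchi hA ho
      (fun i x => (hPc i).1 hbar x) d hd)

end Fermat.Agent.H12.LL
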