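import Mathlib
import Fermat.Agent.H12.LL.LLmain
import Fermat.Agent.TC.NewP3

/-!
# Newness of the points
-/

set_option autoImplicit false
set_option linter.unusedSectionVars false
set_option linter.style.haveILetI false

noncomputable section

namespace Fermat.Agent.H12.LL

open Fermat.Agent.TC Fermat.Agent.TW Fermat.Agent.CC Fermat.Agent.H25.GE Fermat.Agent.H25.TR
open Fermat.Agent.Ell Fermat.Agent.H25 Fermat.Agent.H25.PR Fermat.Agent.H25.PT
open Fermat.Agent.H22
open IsLocalRing CongruenceSubgroup Matrix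

/-- **Newness of the points.** -/
theorem newP (W : WeierstrassCurve ℤ) (p : ℕ) [hp : Fact p.Prime] {q : ℕ} (hq : q.Prime) :
    NewP W p q := by
  intro hΔ hirr hp2 O _ _ _ _ _ _ _ _ K _ _ _ _ I X χ n N' _ hN hqN hqQ hell h0 x
  exact X.dvd_lvl χ n hN hq hqN hqQ hell h0 x

end Fermat.Agent.H12.LL
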